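import Fermat.Statements.S54

set_option autoImplicit false

open Polynomial

namespace Fermat.Agent.S54

variable {A : Type} [CommRing A] [IsLocalRing A]

theorem charpoly_eq_of_equiv {ρ₁ ρ₂ : GaloisRepAdic A} (e : GaloisRepAdic.Equiv ρ₁ ρ₂)
    (σ : AlgebraicClosure ℚ ≃ₐ[ℚ] AlgebraicClosure ℚ) :
    LinearMap.charpoly (ρ₁.ρ σ) = LinearMap.charpoly (ρ₂.ρ σ) := by
  have h : ρ₂.ρ σ = e.toLinearEquiv.conj (ρ₁.ρ σ) := by
    ext x
    simp only [LinearEquiv.conj_apply, LinearMap.comp_apply, LinearEquiv.coe_coe]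
    rw [e.map_apply, LinearEquiv.apply_symm_apply]
  rw [h, LinearEquiv.charpoly_conj]

theorem charpoly_eq_of_isEquiv {ρ₁ ρ₂ : GaloisRepAdic A} (e : ρ₁.IsEquiv ρ₂)
    (σ : AlgebraicClosure ℚ ≃ₐ[ℚ] AlgebraicClosure ℚ) :
    LinearMap.charpoly (ρ₁.ρ σ) = LinearMap.charpoly (ρ₂.ρ σ) :=
  charpoly_eq_of_equiv e.some σ

theorem charpoly_baseChangeAlong {B : Type} [CommRing B] [IsLocalRing B] (φ : A →+* B)
    (hφ : IsLocalHom φ) (ρ : GaloisRepAdic A)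
    (σ : AlgebraicClosure ℚ ≃ₐ[ℚ] AlgebraicClosure ℚ) :
    LinearMap.charpoly ((ρ.baseChangeAlong φ hφ).ρ σ) = (LinearMap.charpoly (ρ.ρ σ)).map φ := by
  letI : Algebra A B := φ.toAlgebra
  exact LinearMap.charpoly_baseChange (ρ.ρ σ) B

/-- If `ρ₁` base-changed along `φ` is equivalent to `ρ₂` and the characteristic polynomial of
`ρ₂ σ` is `X ^ 2 - C t * X + C d`, then `t` lies in the range of `φ`. -/
theorem mem_range_of_charpoly_eq {B : Type} [CommRing B] [IsLocalRing B] (φ : A →+* B)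
    (hφ : IsLocalHom φ) (ρ₁ : GaloisRepAdic A) (ρ₂ : GaloisRepAdic B)
    (e : (ρ₁.baseChangeAlong φ hφ).IsEquiv ρ₂)
    (σ : AlgebraicClosure ℚ ≃ₐ[ℚ] AlgebraicClosure ℚ) (t d : B)
    (h : LinearMap.charpoly (ρ₂.ρ σ) = X ^ 2 - C t * X + C d) :
    t ∈ φ.range := by
  have h1 : (LinearMap.charpoly (ρ₁.ρ σ)).map φ = X ^ 2 - C t * X + C d := by
    rw [← charpoly_baseChangeAlong φ hφ ρ₁ σ, charpoly_eq_of_isEquiv e σ, h]
  have h2 : ((LinearMap.charpoly (ρ₁.ρ σ)).map φ).coeff 1 = -t := by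
    rw [h1]
    simp [coeff_X, coeff_C]
  rw [coeff_map] at h2
  refine ⟨-(LinearMap.charpoly (ρ₁.ρ σ)).coeff 1, ?_⟩
  rw [map_neg, h2, neg_neg]

end Fermat.Agent.S54
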