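import Fermat.Statements.S54

set_option autoImplicit false

namespace Fermat.Agent.S54

open CuspForm

variable {N : ℕ} [NeZero N] {S : Set ℕ}

/-- The image under a ring hom `π` of the Hecke algebra (away from `S ⊇ primes of N`) is contained in
any subring containing all `π (T_ℓ)`. -/
theorem map_mem_of_forall_T_mem {B : Type} [CommRing B]
    (hS : ∀ q : ℕ, q.Prime → q ∣ N → q ∈ S)
    (π : heckeAlgebra N 2 S →+* B) (R : Subring B)
    (hT : ∀ (ℓ : ℕ) (hℓ : ℓ.Prime) (hℓN : ¬ ℓ ∣ N) (hℓS : ℓ ∉ S),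
      π (heckeAlgebra.T hℓ hℓN hℓS) ∈ R)
    (t : heckeAlgebra N 2 S) : π t ∈ R := by
  obtain ⟨t, ht⟩ := t
  induction ht using Algebra.adjoin_induction with
  | mem x hx =>
    rcases hx with ⟨ℓ, hℓ, hℓN, hℓS, rfl⟩ | ⟨q, hqN, hq, hqS, rfl⟩
    · exact hT ℓ hℓ hℓN hℓS
    · exact absurd (hS q hq hqN) hqS
  | algebraMap r =>
    have : (⟨algebraMap ℤ _ r, Subalgebra.algebraMap_mem _ r⟩ : heckeAlgebra N 2 S) =
        ((r : ℤ) : heckeAlgebra N 2 S) := by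
      apply Subtype.ext
      simp
    rw [this, map_intCast]
    exact intCast_mem R r
  | add x y hx hy ihx ihy =>
    have : (⟨x + y, add_mem hx hy⟩ : heckeAlgebra N 2 S) = ⟨x, hx⟩ + ⟨y, hy⟩ := rfl
    rw [this, map_add]
    exact add_mem ihx ihy
  | mul x y hx hy ihx ihy =>
    have : (⟨x * y, mul_mem hx hy⟩ : heckeAlgebra N 2 S) = ⟨x, hx⟩ * ⟨y, hy⟩ := rfl
    rw [this, map_mul]
    exact mul_mem ihx ihy

/-- Under `hS`, if `𝒪[π(heckeAlgebra)] = ⊤` then every subalgebra containing all `π (T_ℓ)` is `⊤`. -/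
theorem eq_top_of_forall_T_mem {𝒪 B : Type} [CommRing 𝒪] [CommRing B] [Algebra 𝒪 B]
    (hS : ∀ q : ℕ, q.Prime → q ∣ N → q ∈ S)
    (π : heckeAlgebra N 2 S →+* B) (hπ : Algebra.adjoin 𝒪 (Set.range π) = ⊤)
    (R : Subalgebra 𝒪 B)
    (hT : ∀ (ℓ : ℕ) (hℓ : ℓ.Prime) (hℓN : ¬ ℓ ∣ N) (hℓS : ℓ ∉ S),
      π (heckeAlgebra.T hℓ hℓN hℓS) ∈ R) : R = ⊤ := by
  rw [eq_top_iff, ← hπ]
  refine Algebra.adjoin_le ?_
  rintro _ ⟨t, rfl⟩
  exact map_mem_of_forall_T_mem hS π R.toSubring hT t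

end Fermat.Agent.S54
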